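import Fermat.Agent.GAL.CTV.WDefs
import Fermat.Agent.S28.FinalCharts
import Fermat.Agent.S28.Charts
import Fermat.Agent.GAL.AN.LD

/-!
# GAL / CTV / Z5 : `ℚ[j]`-integral + `ℓ`-integral `q`-expansion ⇒ `ℤ_(ℓ)[j]`-integral

(1) clear denominators: `c x` is integral over `ℤ_(ℓ)[t]` for some integer `c ≠ 0` (`scaleRoots`);
`c = ℓ^a c'`, `c'` a unit of `ℤ_(ℓ)`, so `ℓ^a x` is integral.
(2) induction on `a` with the `q`-expansion principle `S28.core_fin` / `S28.core_inf`.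
-/

set_option autoImplicit false

open Polynomial ModularCurve AlgebraicCurve

noncomputable section

namespace Fermat.Agent.GAL.CTV

open Fermat.Agent.GAL.KL Fermat.Agent.GAL.KLC

/-- `ℤ_(ℓ)[X] → ℚ[X]`. -/
def z5_g (ℓ : ℕ) : (S28.Zl ℓ)[X] →+* ℚ[X] := mapRingHom (GaloisRep.ratLocalizedAt ℓ).subtype

theorem z5_comp (M ℓ : ℕ) [Fact ℓ.Prime] (t : S28.Fp M) :
    (algebraMap (S28.Fp M) (LaurentSeries ℚ)).comp (S28.iT M ℓ t)
      = ((aeval (t : LaurentSeries ℚ) : ℚ[X] →ₐ[ℚ] LaurentSeries ℚ) : ℚ[X] →+* LaurentSeries ℚ).comp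
          (z5_g ℓ) := by
  refine Polynomial.ringHom_ext (fun a => ?_) ?_
  · simp [S28.iT, z5_g]
  · simp [S28.iT, z5_g]

/-- a polynomial all of whose coefficients are `ℓ`-integral lifts. -/
theorem z5_mem_range (ℓ : ℕ) (a : ℚ[X]) (h : ∀ k, a.coeff k ∈ GaloisRep.ratLocalizedAt ℓ) :
    a ∈ (z5_g ℓ).rangeS := by
  have hl : a ∈ lifts (GaloisRep.ratLocalizedAt ℓ).subtype := by
    rw [lifts_iff_coeff_lifts]
    intro i
    exact ⟨⟨a.coeff i, h i⟩, rfl⟩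
  obtain ⟨b, hb⟩ := (mem_lifts _).1 hl
  exact ⟨b, hb⟩

/-- clearing denominators. -/
theorem z5_clear (M ℓ : ℕ) [Fact ℓ.Prime] (t x : S28.Fp M)
    (hx : IsInt ℚ (t : LaurentSeries ℚ) (x : LaurentSeries ℚ)) :
    ∃ c : ℤ, c ≠ 0 ∧ (S28.iT M ℓ t).IsIntegralElem ((c : S28.Fp M) * x) := by
  classical
  obtain ⟨P, hPm, hP⟩ := hx
  -- a common denominator
  obtain ⟨b, hb⟩ := IsLocalization.exist_integer_multiples_of_finset (nonZeroDivisors ℤ)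
    (P.support.biUnion fun i => (P.coeff i).coeffs)
  have hb0 : (b : ℤ) ≠ 0 := nonZeroDivisors.ne_zero b.2
  set c : ℤ := (b : ℤ) with hc
  have hint : ∀ i k, (c : ℚ) * (P.coeff i).coeff k ∈ GaloisRep.ratLocalizedAt ℓ := by
    intro i k
    by_cases h0 : (P.coeff i).coeff k = 0
    · rw [h0, mul_zero]; exact zero_mem _
    · have hi : P.coeff i ≠ 0 := by
        intro h; rw [h, coeff_zero] at h0; exact h0 rfl
      have hmem : (P.coeff i).coeff k ∈ P.support.biUnion fun i => (P.coeff i).coeffs := by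
        rw [Finset.mem_biUnion]
        exact ⟨i, mem_support_iff.2 hi, coeff_mem_coeffs h0⟩
      obtain ⟨z, hz⟩ := hb _ hmem
      have : (c : ℚ) * (P.coeff i).coeff k = (z : ℚ) := by
        rw [zsmul_eq_mul] at hz
        rw [← hz]
        simp
      rw [this]
      exact intCast_mem _ _
  -- the scaled polynomial
  set s : ℚ[X] := C (c : ℚ) with hs
  have hlift : P.scaleRoots s ∈ lifts (z5_g ℓ) := by
    rw [lifts_iff_coeff_lifts]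
    intro i
    rw [coeff_scaleRoots]
    rcases lt_trichotomy i P.natDegree with hi | hi | hi
    · obtain ⟨e, he⟩ : ∃ e, P.natDegree - i = e + 1 := ⟨P.natDegree - i - 1, by omega⟩
      rw [he, pow_succ]
      have h1 : P.coeff i * (s ^ e * s) = (s * P.coeff i) * s ^ e := by ring
      rw [h1]
      have h2 : s * P.coeff i ∈ (z5_g ℓ).rangeS :=
        z5_mem_range ℓ _ fun k => by rw [hs, coeff_C_mul]; exact hint i k
      have h3 : s ∈ (z5_g ℓ).rangeS :=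
        z5_mem_range ℓ _ fun k => by
          rw [hs, coeff_C]
          split_ifs
          · exact intCast_mem _ _
          · exact zero_mem _
      exact mul_mem h2 (pow_mem h3 e)
    · rw [hi, hPm.coeff_natDegree, Nat.sub_self, pow_zero, mul_one]
      exact ⟨1, map_one _⟩
    · rw [coeff_eq_zero_of_natDegree_lt hi, zero_mul]
      exact ⟨0, map_zero _⟩
  obtain ⟨Q, hQ, -, hQm⟩ :=
    lifts_and_natDegree_eq_and_monic hlift ((monic_scaleRoots_iff s).2 hPm)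
  refine ⟨c, hb0, Q, hQm, ?_⟩
  apply (algebraMap (S28.Fp M) (LaurentSeries ℚ)).injective
  rw [map_zero, hom_eval₂, z5_comp, ← eval₂_map, hQ]
  have h4 := scaleRoots_eval₂_eq_zero
    ((aeval (t : LaurentSeries ℚ) : ℚ[X] →ₐ[ℚ] LaurentSeries ℚ) : ℚ[X] →+* LaurentSeries ℚ)
    (s := s) hP
  have h5 : (algebraMap (S28.Fp M) (LaurentSeries ℚ)) ((c : S28.Fp M) * x)
      = ((aeval (t : LaurentSeries ℚ) : ℚ[X] →ₐ[ℚ] LaurentSeries ℚ) : ℚ[X] →+* LaurentSeries ℚ) s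
        * (x : LaurentSeries ℚ) := by
    rw [map_mul, map_intCast, hs]
    simp
  rw [h5]
  exact h4

/-- `ℓ ^ a * x` is integral over `ℤ_(ℓ)[t]` for some `a`. -/
theorem z5_pow (M ℓ : ℕ) [Fact ℓ.Prime] (t x : S28.Fp M)
    (hx : IsInt ℚ (t : LaurentSeries ℚ) (x : LaurentSeries ℚ)) :
    ∃ a : ℕ, (S28.iT M ℓ t).IsIntegralElem ((ℓ : S28.Fp M) ^ a * x) := by
  have hℓ : ℓ.Prime := Fact.out
  obtain ⟨c, hc0, hc⟩ := z5_clear M ℓ t x hx
  have hfin : FiniteMultiplicity (ℓ : ℤ) c :=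
    Int.finiteMultiplicity_iff.2 ⟨by simpa using hℓ.ne_one, hc0⟩
  obtain ⟨c', hcc', hndvd⟩ := hfin.exists_eq_pow_mul_and_not_dvd
  have hc'0 : (c' : ℚ) ≠ 0 := by
    intro h
    apply hndvd
    have : c' = 0 := by exact_mod_cast h
    rw [this]
    exact dvd_zero _
  let u : S28.Zl ℓ := ⟨((1 : ℤ) : ℚ) / (c' : ℚ), S28.zl_divInt_mem ℓ 1 c' hndvd⟩
  have h1 : (S28.iT M ℓ t).IsIntegralElem (S28.iT M ℓ t (C u)) :=
    (S28.iT M ℓ t).isIntegralElem_map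
  have h2 := RingHom.IsIntegralElem.mul _ h1 hc
  refine ⟨multiplicity (ℓ : ℤ) c, ?_⟩
  have h3 : S28.iT M ℓ t (C u) * ((c : S28.Fp M) * x)
      = (ℓ : S28.Fp M) ^ multiplicity (ℓ : ℤ) c * x := by
    have h4 : S28.iT M ℓ t (C u) = algebraMap ℚ (S28.Fp M) (((1 : ℤ) : ℚ) / (c' : ℚ)) := by
      simp [S28.iT, u]
    have h5 : (c : S28.Fp M) = algebraMap ℚ (S28.Fp M) ((ℓ : ℚ) ^ multiplicity (ℓ : ℤ) c * (c' : ℚ)) := by
      conv_lhs => rw [hcc']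
      simp
    have h6 : (ℓ : S28.Fp M) ^ multiplicity (ℓ : ℤ) c
        = algebraMap ℚ (S28.Fp M) ((ℓ : ℚ) ^ multiplicity (ℓ : ℤ) c) := by
      simp
    rw [h4, h5, h6, ← mul_assoc, ← map_mul]
    congr 2
    rw [Int.cast_one]
    field_simp
  rw [h3] at h2
  exact h2

theorem z5_coeff_pow_mul (M ℓ : ℕ) (x : S28.Fp M) (a : ℕ) (n : ℤ) :
    (((ℓ : S28.Fp M) ^ a * x : S28.Fp M) : LaurentSeries ℚ).coeff n
      = (ℓ : ℚ) ^ a * (x : LaurentSeries ℚ).coeff n := by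
  have h1 : (((ℓ : S28.Fp M) ^ a * x : S28.Fp M) : LaurentSeries ℚ)
      = ((ℓ : ℚ) ^ a) • (x : LaurentSeries ℚ) := by
    rw [← HahnSeries.C_mul_eq_smul, map_pow, map_natCast]
    simp
  rw [h1, HahnSeries.coeff_smul, smul_eq_mul]

theorem z5_natCast_ne_zero (M ℓ : ℕ) [Fact ℓ.Prime] : (ℓ : S28.Fp M) ≠ 0 := by
  have hℓ : ℓ.Prime := Fact.out
  exact_mod_cast hℓ.ne_zero

theorem z5_hc (M ℓ : ℕ) (x : S28.Fp M)
    (hc : ∀ n, (x : LaurentSeries ℚ).coeff n ∈ GaloisRep.ratLocalizedAt ℓ) (a : ℕ) (n : ℤ) :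
    ∃ c ∈ GaloisRep.ratLocalizedAt ℓ,
      (((ℓ : S28.Fp M) ^ (a + 1) * x : S28.Fp M) : S28.LQ).coeff n = (ℓ : ℚ) * c :=
  ⟨(ℓ : ℚ) ^ a * (x : LaurentSeries ℚ).coeff n, mul_mem (pow_mem (natCast_mem _ _) _) (hc n), by
    rw [z5_coeff_pow_mul]; ring⟩

theorem z5_descend_fin (M ℓ : ℕ) [Fact ℓ.Prime] (hM : M ≠ 0) (hℓM : ¬ ℓ ∣ M) (x : S28.Fp M)
    (hc : ∀ n, (x : LaurentSeries ℚ).coeff n ∈ GaloisRep.ratLocalizedAt ℓ) (a : ℕ)
    (h : (S28.iT M ℓ (S28.jF M)).IsIntegralElem ((ℓ : S28.Fp M) ^ a * x)) :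
    (S28.iT M ℓ (S28.jF M)).IsIntegralElem x := by
  induction a with
  | zero => simpa using h
  | succ a ih =>
    obtain ⟨g, hg, hxg⟩ := S28.core_fin M ℓ hM hℓM _ h (z5_hc M ℓ x hc a)
    have : g = (ℓ : S28.Fp M) ^ a * x := by
      apply mul_left_cancel₀ (z5_natCast_ne_zero M ℓ)
      rw [← hxg]; ring
    exact ih (this ▸ hg)

theorem isIntegralElem_fin (M ℓ : ℕ) [Fact ℓ.Prime] (hM : M ≠ 0) (hℓM : ¬ ℓ ∣ M) (x : S28.Fp M)
    (hx : IsInt ℚ jq (x : LaurentSeries ℚ))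
    (hc : ∀ n, (x : LaurentSeries ℚ).coeff n ∈ GaloisRep.ratLocalizedAt ℓ) :
    (S28.iT M ℓ (S28.jF M)).IsIntegralElem x := by
  obtain ⟨a, ha⟩ := z5_pow M ℓ (S28.jF M) x hx
  exact z5_descend_fin M ℓ hM hℓM x hc a ha

theorem z5_descend_inf (M ℓ : ℕ) [Fact ℓ.Prime] (hM : M ≠ 0) (hℓM : ¬ ℓ ∣ M) (x : S28.Fp M)
    (hc : ∀ n, (x : LaurentSeries ℚ).coeff n ∈ GaloisRep.ratLocalizedAt ℓ) (n : ℕ)
    (hz : (S28.iT M ℓ (S28.jF M)).IsIntegralElem ((S28.jF M) ^ n * x)) (a : ℕ)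
    (h : (S28.iT M ℓ (S28.jF M)⁻¹).IsIntegralElem ((ℓ : S28.Fp M) ^ a * x)) :
    (S28.iT M ℓ (S28.jF M)⁻¹).IsIntegralElem x := by
  induction a with
  | zero => simpa using h
  | succ a ih =>
    have hz' : (S28.iT M ℓ (S28.jF M)).IsIntegralElem
        ((S28.jF M) ^ n * ((ℓ : S28.Fp M) ^ (a + 1) * x)) := by
      have h1 : (S28.iT M ℓ (S28.jF M)).IsIntegralElem
          (S28.iT M ℓ (S28.jF M) ((ℓ : (S28.Zl ℓ)[X]) ^ (a + 1))) :=
        (S28.iT M ℓ (S28.jF M)).isIntegralElem_map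
      have h2 := RingHom.IsIntegralElem.mul _ h1 hz
      rw [map_pow, map_natCast] at h2
      have h3 : (S28.jF M) ^ n * ((ℓ : S28.Fp M) ^ (a + 1) * x)
          = (ℓ : S28.Fp M) ^ (a + 1) * ((S28.jF M) ^ n * x) := by ring
      rw [h3]
      exact h2
    obtain ⟨g, hg, hxg⟩ := S28.core_inf M ℓ hM hℓM _ h n hz' (z5_hc M ℓ x hc a)
    have : g = (ℓ : S28.Fp M) ^ a * x := by
      apply mul_left_cancel₀ (z5_natCast_ne_zero M ℓ)
      rw [← hxg]; ring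
    exact ih (this ▸ hg)

theorem isIntegralElem_inf (M ℓ : ℕ) [Fact ℓ.Prime] (hM : M ≠ 0) (hℓM : ¬ ℓ ∣ M) (x : S28.Fp M)
    (hx : IsInt ℚ jq⁻¹ (x : LaurentSeries ℚ)) (n : ℕ)
    (hxn : IsInt ℚ jq (jq ^ n * (x : LaurentSeries ℚ)))
    (hc : ∀ n, (x : LaurentSeries ℚ).coeff n ∈ GaloisRep.ratLocalizedAt ℓ) :
    (S28.iT M ℓ (S28.jF M)⁻¹).IsIntegralElem x := by
  have hz : (S28.iT M ℓ (S28.jF M)).IsIntegralElem ((S28.jF M) ^ n * x) := by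
    refine isIntegralElem_fin M ℓ hM hℓM _ hxn ?_
    rw [← S28.charts_mem_cZl_iff]
    exact mul_mem (pow_mem (S28.charts_jq_mem ℓ) n) ((S28.charts_mem_cZl_iff ℓ _).2 hc)
  obtain ⟨a, ha⟩ := z5_pow M ℓ (S28.jF M)⁻¹ x hx
  exact z5_descend_inf M ℓ hM hℓM x hc n hz a ha

end Fermat.Agent.GAL.CTV
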