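import Fermat.Agent.GAL.CTV.WDefs

/-!
# GAL / CTV / Z4 : descent `ℚ̄ → ℚ` of integrality and of membership in the function field
-/

set_option autoImplicit false

open Polynomial ModularCurve AlgebraicCurve

noncomputable section

namespace Fermat.Agent.GAL.CTV

open Fermat.Agent.GAL.KL Fermat.Agent.GAL.KLC

/-- apply a `ℚ`-linear functional `ℚ̄ → ℚ` to all coefficients. -/
def z4_lamS (lam : Qb →ₗ[ℚ] ℚ) (z : LaurentSeries Qb) : LaurentSeries ℚ := z.map lam

@[simp] theorem z4_lamS_coeff (lam : Qb →ₗ[ℚ] ℚ) (z : LaurentSeries Qb) (n : ℤ) :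
    (z4_lamS lam z).coeff n = lam (z.coeff n) := rfl

theorem z4_lamS_zero (lam : Qb →ₗ[ℚ] ℚ) : z4_lamS lam 0 = 0 := by
  ext n; simp

theorem z4_lamS_add (lam : Qb →ₗ[ℚ] ℚ) (z z' : LaurentSeries Qb) :
    z4_lamS lam (z + z') = z4_lamS lam z + z4_lamS lam z' := by
  ext n; simp

theorem z4_lamS_sum {ι : Type*} (lam : Qb →ₗ[ℚ] ℚ) (s : Finset ι) (f : ι → LaurentSeries Qb) :
    z4_lamS lam (∑ i ∈ s, f i) = ∑ i ∈ s, z4_lamS lam (f i) := by
  classical
  induction s using Finset.induction_on with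
  | empty => simpa using z4_lamS_zero lam
  | insert a s ha ih => rw [Finset.sum_insert ha, Finset.sum_insert ha, z4_lamS_add, ih]

theorem z4_lamS_mul_coeffEmb (lam : Qb →ₗ[ℚ] ℚ) (c : Qb) (u : LaurentSeries ℚ) :
    z4_lamS lam (algebraMap Qb (LaurentSeries Qb) c * coeffEmb Qb u) =
      algebraMap ℚ (LaurentSeries ℚ) (lam c) * u := by
  ext n
  rw [z4_lamS_coeff, algebraMap_laurentSeries_eq_single, algebraMap_laurentSeries_eq_single,
    HahnSeries.coeff_single_mul, HahnSeries.coeff_single_mul, sub_zero, coeffEmb_coeff,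
    mul_comm, ← Algebra.smul_def, map_smul, smul_eq_mul, mul_comm]

theorem z4_lamS_coeffEmb (lam : Qb →ₗ[ℚ] ℚ) (h1 : lam 1 = 1) (u : LaurentSeries ℚ) :
    z4_lamS lam (coeffEmb Qb u) = u := by
  have := z4_lamS_mul_coeffEmb lam 1 u
  rwa [map_one, one_mul, h1, map_one, one_mul] at this

theorem z4_exists_lam {c : Qb} (hc : c ≠ 0) : ∃ lam : Qb →ₗ[ℚ] ℚ, lam c ≠ 0 := by
  by_contra hcon
  push Not at hcon
  exact hc ((Module.forall_dual_apply_eq_zero_iff ℚ c).1 hcon)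

theorem z4_exists_lam_one : ∃ lam : Qb →ₗ[ℚ] ℚ, lam 1 = 1 := by
  obtain ⟨lam, h⟩ := z4_exists_lam (one_ne_zero : (1 : Qb) ≠ 0)
  refine ⟨(lam 1)⁻¹ • lam, ?_⟩
  rw [LinearMap.smul_apply, smul_eq_mul, inv_mul_cancel₀ h]

/-- a polynomial in `coeffEmb t` over `ℚ̄` is turned into a polynomial in `t` over `ℚ`. -/
theorem z4_exists_poly (lam : Qb →ₗ[ℚ] ℚ) (t : LaurentSeries ℚ) (p : Qb[X]) :
    ∃ p' : ℚ[X], ∀ u : LaurentSeries ℚ,
      z4_lamS lam (aeval (coeffEmb Qb t) p * coeffEmb Qb u) = aeval t p' * u := by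
  induction p using Polynomial.induction_on' with
  | add p q hp hq =>
    obtain ⟨p', hp'⟩ := hp
    obtain ⟨q', hq'⟩ := hq
    refine ⟨p' + q', fun u => ?_⟩
    rw [map_add, add_mul, z4_lamS_add, hp', hq', map_add, add_mul]
  | monomial e a =>
    refine ⟨monomial e (lam a), fun u => ?_⟩
    rw [aeval_monomial, aeval_monomial, mul_assoc, ← map_pow, ← map_mul, z4_lamS_mul_coeffEmb,
      mul_assoc]

theorem isInt_descend (t z : LaurentSeries ℚ) (h : IsInt Qb (coeffEmb Qb t) (coeffEmb Qb z)) :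
    IsInt ℚ t z := by
  obtain ⟨lam, h1⟩ := z4_exists_lam_one
  obtain ⟨P, hPm, hP⟩ := h
  choose p' hp' using fun i : ℕ => z4_exists_poly lam t (P.coeff i)
  set d := P.natDegree with hd
  refine ⟨X ^ d + ∑ i : Fin d, C (p' i) * X ^ (i : ℕ),
    monic_X_pow_add (degree_sum_fin_lt fun i : Fin d => p' i), ?_⟩
  rw [hPm.as_sum, eval₂_add, eval₂_pow, eval₂_X, eval₂_finsetSum] at hP
  have h2 := congrArg (z4_lamS lam) hP
  rw [z4_lamS_zero, z4_lamS_add, ← map_pow, z4_lamS_coeffEmb lam h1, z4_lamS_sum] at h2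
  rw [eval₂_add, eval₂_pow, eval₂_X, eval₂_finsetSum, ← h2, ← hd,
    ← Fin.sum_univ_eq_sum_range (fun i => z4_lamS lam (eval₂ _ _ (C (P.coeff i) * X ^ i))) d]
  congr 1
  refine Finset.sum_congr rfl fun i _ => ?_
  rw [eval₂_mul, eval₂_C, eval₂_pow, eval₂_X, eval₂_mul, eval₂_C, eval₂_pow, eval₂_X, ← map_pow]
  exact (hp' i (z ^ (i : ℕ))).symm

/-- the `ℚ̄`-span (for the module structure coming from the algebra structure). -/
abbrev z4_span (F₀ : IntermediateField ℚ (LaurentSeries ℚ)) :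
    @Submodule Qb (LaurentSeries Qb) _ _ Algebra.toModule :=
  @Submodule.span Qb (LaurentSeries Qb) _ _ Algebra.toModule
    (⇑(coeffEmb Qb) '' (F₀ : Set (LaurentSeries ℚ)))

/-- the `ℚ̄`-algebra generated by the rational function field is its `ℚ̄`-span. -/
theorem z4_adjoin_eq_span (F₀ : IntermediateField ℚ (LaurentSeries ℚ)) :
    Subalgebra.toSubmodule (Algebra.adjoin Qb (⇑(coeffEmb Qb) '' (F₀ : Set (LaurentSeries ℚ)))) =
      z4_span F₀ := by
  apply Algebra.adjoin_eq_span_of_subset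
  intro y hy
  refine @Submodule.subset_span Qb (LaurentSeries Qb) _ _ Algebra.toModule _ _ ?_
  induction hy using Submonoid.closure_induction with
  | mem y hy => exact hy
  | one => exact ⟨1, one_mem _, map_one _⟩
  | mul y y' _ _ hy hy' =>
    obtain ⟨a, ha, rfl⟩ := hy
    obtain ⟨b, hb, rfl⟩ := hy'
    exact ⟨a * b, mul_mem ha hb, map_mul _ _ _⟩

theorem z4_lamS_span (F₀ : IntermediateField ℚ (LaurentSeries ℚ)) (lam : Qb →ₗ[ℚ] ℚ)
    (x : LaurentSeries ℚ) {B : LaurentSeries Qb} (hB : B ∈ z4_span F₀) :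
    z4_lamS lam B ∈ F₀ ∧ z4_lamS lam (coeffEmb Qb x * B) = x * z4_lamS lam B := by
  induction hB using Submodule.closure_induction with
  | zero =>
    rw [mul_zero, z4_lamS_zero, mul_zero]
    exact ⟨zero_mem _, rfl⟩
  | add B B' _ _ hB hB' =>
    rw [mul_add, z4_lamS_add, z4_lamS_add, hB.2, hB'.2, mul_add]
    exact ⟨add_mem hB.1 hB'.1, rfl⟩
  | smul_mem c B hB =>
    obtain ⟨f, hf, rfl⟩ := hB
    rw [Algebra.smul_def, mul_left_comm, ← map_mul, z4_lamS_mul_coeffEmb,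
      z4_lamS_mul_coeffEmb, mul_left_comm]
    exact ⟨mul_mem (F₀.algebraMap_mem _) hf, rfl⟩

theorem z4_mem_of_mem_laurentBaseChange (F₀ : IntermediateField ℚ (LaurentSeries ℚ))
    (z : LaurentSeries ℚ) (h : coeffEmb Qb z ∈ laurentBaseChange Qb F₀) : z ∈ F₀ := by
  obtain ⟨A, hA, B, hB, hAB⟩ := IntermediateField.mem_adjoin_iff_div.1 h
  rcases eq_or_ne B 0 with rfl | hB0
  · rw [div_zero] at hAB
    have : z = 0 := (coeffEmb Qb).injective (by rw [hAB, map_zero])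
    rw [this]
    exact zero_mem _
  have hA' := (SetLike.ext_iff.1 (z4_adjoin_eq_span F₀) A).1 hA
  have hB' := (SetLike.ext_iff.1 (z4_adjoin_eq_span F₀) B).1 hB
  obtain ⟨n, hn⟩ : ∃ n : ℤ, B.coeff n ≠ 0 := by
    by_contra hcon
    push Not at hcon
    exact hB0 (HahnSeries.ext (funext hcon))
  obtain ⟨lam, hlam⟩ := z4_exists_lam hn
  have h1 : coeffEmb Qb z * B = A := by rw [hAB, div_mul_cancel₀ _ hB0]
  have h2 := (z4_lamS_span F₀ lam z hB').2
  rw [h1] at h2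
  have h3 : z4_lamS lam B ≠ 0 := by
    intro h0
    apply hlam
    rw [← z4_lamS_coeff, h0, HahnSeries.coeff_zero]
  rw [eq_div_of_mul_eq h3 h2.symm]
  exact div_mem (z4_lamS_span F₀ lam z hA').1 (z4_lamS_span F₀ lam z hB').1

theorem mem_full_of_mem_FL (M : ℕ) (z : LaurentSeries ℚ) (h : coeffEmb Qb z ∈ FL Qb M) :
    z ∈ modularFunctionFieldFull M :=
  z4_mem_of_mem_laurentBaseChange _ z h

end Fermat.Agent.GAL.CTV
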