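import Fermat.Agent.GAL.CTV.Z.Basic

/-!
# GAL / CTV / Z6 : a monic equation over `ℤ_(ℓ)[X]` between series of `ℤ((q))` reduces to any field
of characteristic `ℓ`
-/

set_option autoImplicit false

open Polynomial ModularCurve AlgebraicCurve

noncomputable section

namespace Fermat.Agent.GAL.CTV

open Fermat.Agent.GAL.KL Fermat.Agent.GAL.KLC

/-! ## Z6 -/

/-- `A[X] → R((q))`, `X ↦ t`, coefficients through `f : A → R`. -/
def z6_ev {A R : Type*} [CommRing A] [CommRing R] (f : A →+* R) (t : LaurentSeries R) :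
    Polynomial A →+* LaurentSeries R :=
  Polynomial.eval₂RingHom ((HahnSeries.C : R →+* LaurentSeries R).comp f) t

theorem z6_coeffMap_C {R R' : Type*} [CommRing R] [CommRing R'] (g : R →+* R') (a : R) :
    coeffMap g (HahnSeries.C a) = HahnSeries.C (g a) := coeffMap_single g 0 a

theorem z6_coeffMap_cZ {R R' : Type*} [CommRing R] [CommRing R'] (g : R →+* R')
    (y : LaurentSeries ℤ) : coeffMap g (cZ R y) = cZ R' y := by
  rw [coeffMap_coeffMap]
  exact coeffMap_congr (RingHom.ext_int _ _) y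

theorem z6_coeffMap_comp_ev {A R R' : Type*} [CommRing A] [CommRing R] [CommRing R']
    (f : A →+* R) (g : R →+* R') (t : LaurentSeries R) :
    (coeffMap g).comp (z6_ev f t) = z6_ev (g.comp f) (coeffMap g t) := by
  apply Polynomial.ringHom_ext
  · intro a
    simp [z6_ev]
  · simp [z6_ev]

theorem z6_coeffMap_injective {R R' : Type*} [CommRing R] [CommRing R'] (g : R →+* R')
    (hg : Function.Injective g) : Function.Injective (coeffMap g) := by
  intro x y h
  ext n
  apply hg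
  rw [← coeffMap_coeff, ← coeffMap_coeff, h]

/-- transport of a monic equation along `A ↪ R`, `A → R'`. -/
theorem z6_transport {A R R' : Type*} [CommRing A] [CommRing R] [CommRing R']
    (ι : A →+* R) (hι : Function.Injective ι) (r : A →+* R') (tZ zZ : LaurentSeries ℤ)
    (h : (z6_ev ι (cZ R tZ)).IsIntegralElem (cZ R zZ)) :
    (z6_ev r (cZ R' tZ)).IsIntegralElem (cZ R' zZ) := by
  obtain ⟨P, hP, hPz⟩ := h
  refine ⟨P, hP, ?_⟩
  have h0 : Polynomial.eval₂ (z6_ev (RingHom.id A) (cZ A tZ)) (cZ A zZ) P = 0 := by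
    apply z6_coeffMap_injective ι hι
    rw [map_zero, Polynomial.hom_eval₂, z6_coeffMap_comp_ev, z6_coeffMap_cZ, z6_coeffMap_cZ,
      RingHom.comp_id]
    exact hPz
  have h1 := congrArg (coeffMap r) h0
  rw [map_zero, Polynomial.hom_eval₂, z6_coeffMap_comp_ev, z6_coeffMap_cZ, z6_coeffMap_cZ,
    RingHom.comp_id] at h1
  exact h1

theorem z6_evZl_eq (ℓ : ℕ) (t : LaurentSeries ℚ) :
    evZl ℓ t = z6_ev (GaloisRep.ratLocalizedAt ℓ).subtype t := by
  apply Polynomial.ringHom_ext
  · intro a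
    simp [evZl, z6_ev]
  · simp [evZl, z6_ev]

theorem z6_ev_eq_aeval {A k : Type*} [CommRing A] [Field k] (r : A →+* k) (t : LaurentSeries k) :
    z6_ev r t = ((aeval t : k[X] →ₐ[k] LaurentSeries k) : k[X] →+* LaurentSeries k).comp
      (Polynomial.mapRingHom r) := by
  apply Polynomial.ringHom_ext
  · intro a
    simp [z6_ev, algebraMap_laurentSeries_eq_single]
  · simp [z6_ev]

theorem isInt_red (ℓ : ℕ) [Fact ℓ.Prime] (k : Type*) [Field k] [CharP k ℓ] (tZ zZ : LaurentSeries ℤ)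
    (h : (evZl ℓ (cZ ℚ tZ)).IsIntegralElem (cZ ℚ zZ)) : IsInt k (cZ k tZ) (cZ k zZ) := by
  let r : S28.Zl ℓ →+* k := (ZMod.castHom (dvd_refl ℓ) k).comp (S28.resZ ℓ)
  rw [z6_evZl_eq] at h
  obtain ⟨P, hP, hPz⟩ := z6_transport (GaloisRep.ratLocalizedAt ℓ).subtype
    Subtype.val_injective r tZ zZ h
  refine ⟨P.map (Polynomial.mapRingHom r), hP.map _, ?_⟩
  rw [Polynomial.eval₂_map, ← z6_ev_eq_aeval]
  exact hPz

end Fermat.Agent.GAL.CTV
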