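import Fermat.Agent.GAL.CTV.Z.Basic
import Fermat.Agent.GAL.CTV.Z.Descent
import Fermat.Agent.GAL.CTV.Z.Core
import Fermat.Agent.GAL.CTV.Z.Red
import Fermat.Agent.GAL.KL.BasicInt

/-!
# GAL / CTV / Z7 : assembly of the algebraic half of block Z (char 0 → char ℓ)

From the analytic facts `Z3Facts` (`g = f⁶/Δ` is a function of level `M`, integral over `ℚ̄[j]`, and
`g^M j^{-(M-1)}` is integral over `ℚ̄[1/j]`) we deduce the same integrality statements for the reductions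
in any field of characteristic `ℓ ∤ M`.
-/

set_option autoImplicit false

open Polynomial ModularCurve AlgebraicCurve

noncomputable section

namespace Fermat.Agent.GAL.CTV

open Fermat.Agent.GAL.KL Fermat.Agent.GAL.KLC

/-- the interface with the analytic half (Z3). -/
structure Z3Facts (M : ℕ) (fZ : PowerSeries ℤ) : Prop where
  mem : cZ Qb (gZ fZ) ∈ FL Qb M
  fin : IsInt Qb (cZ Qb jZ) (cZ Qb (gZ fZ))
  inf : IsInt Qb (cZ Qb jZ)⁻¹ (cZ Qb (gZ fZ) ^ M * (cZ Qb jZ)⁻¹ ^ (M - 1))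

/-- `g ∈ F'`. -/
theorem z7_g_mem (M : ℕ) [NeZero M] (fZ : PowerSeries ℤ) (h : Z3Facts M fZ) :
    cZ ℚ (gZ fZ) ∈ S28.Fp M :=
  S28.full_le_Fp M (mem_full_of_mem_FL M _ (by rw [coeffEmb_cZ]; exact h.mem))

/-- `g` is integral over `ℚ[j]`. -/
theorem z7_g_int (M : ℕ) (fZ : PowerSeries ℤ) (h : Z3Facts M fZ) :
    IsInt ℚ jq (cZ ℚ (gZ fZ)) := by
  refine isInt_descend _ _ ?_
  rw [← cZ_rat_jZ, coeffEmb_cZ, coeffEmb_cZ]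
  exact h.fin

theorem isInt_g_of (M ℓ : ℕ) [NeZero M] [Fact ℓ.Prime] (hℓM : ¬ ℓ ∣ M) (k : Type*) [Field k]
    [CharP k ℓ] (fZ : PowerSeries ℤ) (h : Z3Facts M fZ) : IsInt k (cZ k jZ) (cZ k (gZ fZ)) := by
  refine isInt_red ℓ k jZ (gZ fZ) ?_
  have h1 := isIntegralElem_fin M ℓ (NeZero.ne M) hℓM ⟨cZ ℚ (gZ fZ), z7_g_mem M fZ h⟩
    (z7_g_int M fZ h) (fun n => coeff_cZ_mem ℓ _ n)
  have h2 := (isIntegralElem_iT_iff M ℓ _ _).mp h1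
  rw [cZ_rat_jZ]
  exact h2

theorem isInt_g_inf_of (M ℓ : ℕ) [NeZero M] [Fact ℓ.Prime] (hℓM : ¬ ℓ ∣ M) (k : Type*) [Field k]
    [CharP k ℓ] (fZ : PowerSeries ℤ) (h : Z3Facts M fZ) :
    IsInt k (cZ k jZ)⁻¹ (cZ k (gZ fZ) ^ M * (cZ k jZ)⁻¹ ^ (M - 1)) := by
  have hk : cZ k (gZ fZ) ^ M * (cZ k jZ)⁻¹ ^ (M - 1) = cZ k (gZ fZ ^ M * jZi ^ (M - 1)) := by
    rw [map_mul, map_pow, map_pow, cZ_jZi]
  rw [hk, ← cZ_jZi]
  refine isInt_red ℓ k jZi (gZ fZ ^ M * jZi ^ (M - 1)) ?_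
  -- the element of `F'`
  have hx : cZ ℚ (gZ fZ ^ M * jZi ^ (M - 1)) = cZ ℚ (gZ fZ) ^ M * jq⁻¹ ^ (M - 1) := by
    rw [map_mul, map_pow, map_pow, cZ_jZi, cZ_rat_jZ]
  have hj0 : jq ≠ 0 := by
    intro h0
    have h1 : cZ ℚ jZ * cZ ℚ jZi = 1 := by rw [← map_mul, jZ_mul_jZi, map_one]
    rw [cZ_rat_jZ, h0, zero_mul] at h1
    exact zero_ne_one h1
  have hmem : cZ ℚ (gZ fZ ^ M * jZi ^ (M - 1)) ∈ S28.Fp M := by
    rw [hx]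
    exact mul_mem (pow_mem (z7_g_mem M fZ h) _) (pow_mem (inv_mem (S28.jF M).2) _)
  have hinf : IsInt ℚ jq⁻¹ (cZ ℚ (gZ fZ ^ M * jZi ^ (M - 1))) := by
    refine isInt_descend _ _ ?_
    rw [← cZ_rat_jZ, ← cZ_jZi, coeffEmb_cZ, coeffEmb_cZ, map_mul, map_pow, map_pow, cZ_jZi]
    exact h.inf
  have hfin : IsInt ℚ jq (jq ^ (M - 1) * cZ ℚ (gZ fZ ^ M * jZi ^ (M - 1))) := by
    have : jq ^ (M - 1) * cZ ℚ (gZ fZ ^ M * jZi ^ (M - 1)) = cZ ℚ (gZ fZ) ^ M := by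
      rw [hx, inv_pow]
      field_simp
    rw [this]
    exact (z7_g_int M fZ h).pow M
  have h1 := isIntegralElem_inf M ℓ (NeZero.ne M) hℓM ⟨_, hmem⟩ hinf (M - 1) hfin
    (fun n => coeff_cZ_mem ℓ _ n)
  have h2 := (isIntegralElem_iT_iff M ℓ _ _).mp h1
  rw [cZ_jZi, cZ_rat_jZ]
  exact h2

end Fermat.Agent.GAL.CTV
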