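import Fermat.Agent.GAL.CTV.Z.Analytic
import Fermat.Agent.GAL.CTV.Z.Main

/-!
# GAL / CTV / Z : the three exports of block Z (`z0_mem` is in `Z/Analytic.lean`).
-/

set_option autoImplicit false

open Polynomial ModularCurve AlgebraicCurve

noncomputable section

namespace Fermat.Agent.GAL.CTV

open Fermat.Agent.GAL.KL Fermat.Agent.GAL.KLC

theorem z3Facts (M : ℕ) [NeZero M] (fZ : PowerSeries ℤ) (hf : IsCuspExp M fZ) : Z3Facts M fZ :=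
  ⟨z3_mem M fZ hf, z3_fin M fZ hf, z3_inf M fZ hf⟩

/-- (Zb) -/
theorem isInt_g (M ℓ : ℕ) [NeZero M] [Fact ℓ.Prime] (hℓM : ¬ ℓ ∣ M) (k : Type*) [Field k] [CharP k ℓ]
    (fZ : PowerSeries ℤ) (hf : IsCuspExp M fZ) : IsInt k (cZ k jZ) (cZ k (gZ fZ)) :=
  isInt_g_of M ℓ hℓM k fZ (z3Facts M fZ hf)

/-- (Zc) -/
theorem isInt_g_inf (M ℓ : ℕ) [NeZero M] [Fact ℓ.Prime] (hℓM : ¬ ℓ ∣ M) (k : Type*) [Field k]
    [CharP k ℓ] (fZ : PowerSeries ℤ) (hf : IsCuspExp M fZ) :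
    ∃ N : ℕ, 0 < N ∧ IsInt k (cZ k jZ)⁻¹ (cZ k (gZ fZ) ^ N * (cZ k jZ)⁻¹ ^ (N - 1)) :=
  ⟨M, Nat.pos_of_ne_zero (NeZero.ne M), isInt_g_inf_of M ℓ hℓM k fZ (z3Facts M fZ hf)⟩

end Fermat.Agent.GAL.CTV
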