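import Fermat.Agent.GAL.CTV.Z.Defs
import Fermat.Agent.GAL.CT.Q.Sturm
import Fermat.Agent.ES.LevelOne
import Fermat.Agent.S24.Mod.QExpJ
import Fermat.Prelude.Thm_CongruenceSubgroup_one_mem_strictPeriods_Gamma0

/-!
# GAL / CTV / Z3 : the forms `f E₄ E₆` and `f⁶`
-/

set_option autoImplicit false

open Polynomial ModularCurve UpperHalfPlane ModularForm
open scoped MatrixGroups

noncomputable section

namespace Fermat.Agent.GAL.CTV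

open Fermat.Agent.GAL.KL Fermat.Agent.GAL.KLC Fermat.Agent.S24

theorem z3_eisenstein6_eq : eisenstein6 = CT.eisenstein6 := rfl

theorem z3_qExpansion (M : ℕ) (fZ : PowerSeries ℤ) (f : CuspForm (CongruenceSubgroup.Gamma0 M) 2)
    (hf : ∀ n : ℕ, ModularFormClass.qCoeff f n = (fZ.coeff n : ℂ)) :
    qExpansion 1 (f : ℍ → ℂ) = fZ.map (Int.castRingHom ℂ) := by
  ext n
  rw [PowerSeries.coeff_map]
  exact hf n

theorem z3_analyticAt (M : ℕ) (f : CuspForm (CongruenceSubgroup.Gamma0 M) 2) :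
    AnalyticAt ℂ (cuspFunction 1 (f : ℍ → ℂ)) 0 :=
  ModularFormClass.analyticAt_cuspFunction_zero f one_pos
    (CongruenceSubgroup.one_mem_strictPeriods_Gamma0 M)

theorem z3_analyticAt_E4 : AnalyticAt ℂ (cuspFunction 1 (E₄ : ℍ → ℂ)) 0 :=
  ModularFormClass.analyticAt_cuspFunction_zero E₄ one_pos one_mem_strictPeriods_SL

theorem z3_analyticAt_E6 : AnalyticAt ℂ (cuspFunction 1 (E₆ : ℍ → ℂ)) 0 :=
  ModularFormClass.analyticAt_cuspFunction_zero E₆ one_pos one_mem_strictPeriods_SL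

theorem z3_analyticAt_mul {a b : ℍ → ℂ} (ha : AnalyticAt ℂ (cuspFunction 1 a) 0)
    (hb : AnalyticAt ℂ (cuspFunction 1 b) 0) : AnalyticAt ℂ (cuspFunction 1 (a * b)) 0 := by
  rw [cuspFunction_mul ha.continuousAt hb.continuousAt]
  exact ha.mul hb

theorem z3_pow {a : ℍ → ℂ} (ha : AnalyticAt ℂ (cuspFunction 1 a) 0) (n : ℕ) :
    AnalyticAt ℂ (cuspFunction 1 (a ^ (n + 1))) 0 ∧
      qExpansion 1 (a ^ (n + 1)) = qExpansion 1 a ^ (n + 1) := by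
  induction n with
  | zero => simpa using ha
  | succ n ih =>
    rw [pow_succ a (n + 1), pow_succ (qExpansion 1 a) (n + 1)]
    exact ⟨z3_analyticAt_mul ih.1 ha, by rw [qExpansion_mul ih.1 ha, ih.2]⟩

theorem z_form_z0 (M : ℕ) [NeZero M] (fZ : PowerSeries ℤ) (hf : IsCuspExp M fZ) :
    ∃ G : MF12 M, qExpansion 1 (G : ℍ → ℂ)
      = (fZ * eisenstein4 * eisenstein6).map (Int.castRingHom ℂ) := by
  obtain ⟨f, hf⟩ := hf
  have h1 : (f : ℍ → ℂ) ∈ ES.MF (CongruenceSubgroup.Gamma0 M) 2 := ES.CF_le_MF (ES.coe_mem_CF f)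
  have h2 : (f : ℍ → ℂ) * ES.E4 * ES.E6 ∈ MF12 M :=
    ES.MF_cast (by norm_num)
      (ES.MF_mul (ES.MF_mul h1 (ES.MF_top_le ES.E4_mem)) (ES.MF_top_le ES.E6_mem))
  refine ⟨⟨_, h2⟩, ?_⟩
  show qExpansion 1 ((f : ℍ → ℂ) * (E₄ : ℍ → ℂ) * (E₆ : ℍ → ℂ)) = _
  rw [qExpansion_mul (z3_analyticAt_mul (z3_analyticAt M f) z3_analyticAt_E4) z3_analyticAt_E6,
    qExpansion_mul (z3_analyticAt M f) z3_analyticAt_E4, z3_qExpansion M fZ f hf,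
    S24.qExpansion_E4, CT.qExpansion_E6, map_mul, map_mul]
  rfl

theorem z_form_g (M : ℕ) [NeZero M] (fZ : PowerSeries ℤ) (hf : IsCuspExp M fZ) :
    ∃ G : MF12 M, (G : ℍ → ℂ) ∈ ES.CF (CongruenceSubgroup.Gamma0 M) (12 * ((1 : ℕ) : ℤ)) ∧
      qExpansion 1 (G : ℍ → ℂ) = (fZ ^ 6).map (Int.castRingHom ℂ) := by
  obtain ⟨f, hf⟩ := hf
  have h0 : (f : ℍ → ℂ) ∈ ES.CF (CongruenceSubgroup.Gamma0 M) 2 := ES.coe_mem_CF f
  have h1 : (f : ℍ → ℂ) ∈ ES.MF (CongruenceSubgroup.Gamma0 M) 2 := ES.CF_le_MF h0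
  have h2 : (f : ℍ → ℂ) ^ (5 + 1) ∈ ES.CF (CongruenceSubgroup.Gamma0 M) (12 * ((1 : ℕ) : ℤ)) := by
    have h3 : (f : ℍ → ℂ) ^ (5 + 1) = (f : ℍ → ℂ) * (f : ℍ → ℂ) ^ 5 := pow_succ' _ _
    rw [h3]
    exact ES.CF_cast (by norm_num) (ES.CF_mul_MF h0 (ES.MF_pow h1 5))
  refine ⟨⟨_, ES.CF_le_MF h2⟩, h2, ?_⟩
  show qExpansion 1 ((f : ℍ → ℂ) ^ (5 + 1)) = _
  rw [(z3_pow (z3_analyticAt M f) 5).2, z3_qExpansion M fZ f hf, map_pow]

end Fermat.Agent.GAL.CTV
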