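import Fermat.Agent.GAL.Genus.Main
import Fermat.Agent.GAL.KLC.IsIntOrd

/-!
# GAL / CTV / Z4 : a function field element that is holomorphic on `ℍ` is integral over `ℚ̄[j]`
-/

set_option autoImplicit false

open Polynomial ModularCurve AlgebraicCurve UpperHalfPlane
open scoped MatrixGroups

noncomputable section

namespace Fermat.Agent.GAL.CTV

open Fermat.Agent.GAL.KL Fermat.Agent.GAL.KLC Fermat.Agent.S24

/-! ## Z4 : holomorphic ⇒ integral over `ℚ̄[j]` (file `Z/IntFin.lean`) -/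

theorem z_ord_nonneg_of_Psi (M : ℕ) [NeZero M] (x : FN M) (u : MerMod M)
    (hx : Psi M x = algebraMap (MerMod M) (LL M) u) (P : Place Qb (FN M))
    (hP : 0 ≤ P.ord (JJ M)) : 0 ≤ P.ord x := by
  obtain ⟨τ₀, i, hi⟩ := Genus.exists_Wat_centred P hP
  refine (hi.le_one_iff x).1 ?_
  rw [Genus.phi_apply_eq_smul, hx, smul_algebraMap_LL]
  exact Genus.Wat_algebraMap_le_one τ₀ _

theorem z_isInt_of_Psi (M : ℕ) [NeZero M] (x : FN M) (u : MerMod M)
    (hx : Psi M x = algebraMap (MerMod M) (LL M) u) : IsInt Qb (JJ M) x :=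
  (isInt_iff_forall_ord (transcendental_JJ M) x).2 fun P hP => z_ord_nonneg_of_Psi M x u hx P hP

end Fermat.Agent.GAL.CTV
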