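import Fermat.Agent.GAL.CTV.Z.Defs
import Fermat.Agent.GAL.Genus.Main
import Fermat.Agent.GAL.KLC.IsIntOrd

/-!
# GAL / CTV / Z5 : cusp forms at the cusps: `g^M / j^(M-1)` is integral over `ℚ̄[1/j]`
-/

set_option autoImplicit false

open Polynomial ModularCurve AlgebraicCurve UpperHalfPlane
open scoped MatrixGroups ModularForm

noncomputable section

namespace Fermat.Agent.GAL.CTV

open Fermat.Agent.GAL.KL Fermat.Agent.GAL.KLC Fermat.Agent.S24

local notation "Δ" => ModularForm.discriminant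

open Filter Topology Function in
/-- pole bound at `i∞` for an element `h` of `MerMod N` such that `Δ^s h` is nice and vanishes
at `i∞`. -/
theorem z5_Winf_le {N : ℕ} [NeZero N] (h : MerMod N) (s : ℕ)
    (hm : IsNice N (fun τ => Δ τ ^ s * h.1 τ))
    (hz : IsZeroAtImInfty (fun τ => Δ τ ^ s * h.1 τ)) :
    Winf N (algebraMap (MerMod N) (LL N) h) ≤ WithZero.exp ((s : ℤ) * N - 1) := by
  by_cases h0 : h = 0
  · rw [h0, map_zero, map_zero]
    exact zero_le
  rw [Winf_algebraMap _ h0, WithZero.exp_le_exp]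
  have hG : AnalyticAt ℂ (UpperHalfPlane.cuspFunction N (fun τ => Δ τ ^ s * h.1 τ)) 0 :=
    hm.LC_analyticAt_cuspFunction
  have hD : AnalyticAt ℂ (UpperHalfPlane.cuspFunction N Δ) 0 :=
    (isNice_discriminant N).LC_analyticAt_cuspFunction
  have he : evQ N h * (UpperHalfPlane.cuspFunction N Δ) ^ s =ᶠ[𝓝[≠] 0]
      UpperHalfPlane.cuspFunction N (fun τ => Δ τ ^ s * h.1 τ) := by
    filter_upwards [self_mem_nhdsWithin] with z hz
    rw [Pi.mul_apply, Pi.pow_apply, LC_evQ_eq_div h (m := s) hz]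
    have hne : UpperHalfPlane.cuspFunction N Δ z ≠ 0 := by
      rw [UpperHalfPlane.cuspFunction, Periodic.cuspFunction_eq_of_nonzero _ _ hz]
      exact ModularForm.discriminant_ne_zero _
    rw [div_mul_cancel₀ _ (pow_ne_zero _ hne)]
  have h1 := meromorphicOrderAt_congr he
  rw [meromorphicOrderAt_mul (meromorphicAt_evQ h) (hD.meromorphicAt.pow s),
    meromorphicOrderAt_pow hD.meromorphicAt, Genus.forms_order_cuspFunction_discriminant] at h1
  have hval : UpperHalfPlane.cuspFunction N (fun τ => Δ τ ^ s * h.1 τ) 0 = 0 :=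
    hz.cuspFunction_apply_zero (LC_natCast_pos N)
  have h2 : (1 : WithTop ℤ) ≤ meromorphicOrderAt
      (UpperHalfPlane.cuspFunction N (fun τ => Δ τ ^ s * h.1 τ)) 0 := by
    rw [hG.meromorphicOrderAt_eq]
    have h3 := hG.analyticOrderAt_ne_zero.mpr hval
    cases ha : analyticOrderAt (UpperHalfPlane.cuspFunction N (fun τ => Δ τ ^ s * h.1 τ)) 0 with
    | top => simp
    | coe n =>
      rw [ha] at h3
      have h4 : n ≠ 0 := by exact_mod_cast h3
      have h5 : (1 : ℤ) ≤ (n : ℤ) := by exact_mod_cast Nat.one_le_iff_ne_zero.mpr h4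
      show ((1 : ℤ) : WithTop ℤ) ≤ (((n : ℕ) : ℤ) : WithTop ℤ)
      exact_mod_cast h5
  rw [← h1] at h2
  cases ho : meromorphicOrderAt (evQ N h) 0 with
  | top => exact absurd ho (order_evQ_ne_top h h0)
  | coe n =>
    rw [ho] at h2
    rw [WithTop.untop₀_coe]
    have h5 : 1 ≤ n + (s : ℤ) * (N : ℤ) := by
      have : ((1 : ℤ) : WithTop ℤ) ≤ ((n + (s : ℤ) * (N : ℤ) : ℤ) : WithTop ℤ) := by
        simpa using h2
      exact_mod_cast this
    omega

theorem z_Winf_cusp (M : ℕ) [NeZero M] (G : MF12 M)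
    (hG : (G : ℍ → ℂ) ∈ ES.CF (CongruenceSubgroup.Gamma0 M) (12 * ((1 : ℕ) : ℤ))) (γ : SL(2, ℤ)) :
    Winf M (algebraMap (MerMod M) (LL M) (γ • Genus.formsT M 1 G)) ≤ WithZero.exp ((M : ℤ) - 1) := by
  have he : ((G : ℍ → ℂ) ∣[12 * ((1 : ℕ) : ℤ)] γ⁻¹) =
      fun τ => Δ τ ^ 1 * (γ • Genus.formsT M 1 G).1 τ := by
    funext τ
    exact Genus.forms_slash_eq _ 1 γ⁻¹ τ
  have h := z5_Winf_le (γ • Genus.formsT M 1 G) 1 (Genus.forms_isNice_mul G.2 γ⁻¹)
    (by rw [← he]; exact hG.2.2 γ⁻¹)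
  simpa using h

theorem z5_phi_eq (M : ℕ) [NeZero M] (x : FN M) (u : MerMod M)
    (hx : Psi M x = algebraMap (MerMod M) (LL M) u) (i : Cos M) :
    phi M i x = algebraMap (MerMod M) (LL M) (i.out • u) := by
  rw [phi, AlgHom.comp_apply, sig_apply, hx, smul_algebraMap_LL]

theorem z5_ord_nonneg_of_Psi (M : ℕ) [NeZero M] (x : FN M) (u : MerMod M)
    (hx : Psi M x = algebraMap (MerMod M) (LL M) u) (P : Place Qb (FN M))
    (hP : 0 ≤ P.ord (JJ M)) : 0 ≤ P.ord x := by
  obtain ⟨τ₀, i, hi⟩ := Genus.exists_Wat_centred P hP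
  rw [← hi.le_one_iff, z5_phi_eq M x u hx]
  exact Genus.Wat_algebraMap_le_one τ₀ _

theorem z_isInt_inf_of_Psi (M : ℕ) [NeZero M] (x : FN M) (u : MerMod M)
    (hx : Psi M x = algebraMap (MerMod M) (LL M) u)
    (hu : ∀ γ : SL(2, ℤ), Winf M (algebraMap (MerMod M) (LL M) (γ • u)) ≤ WithZero.exp ((M : ℤ) - 1)) :
    IsInt Qb (JJ M)⁻¹ (x ^ M * (JJ M)⁻¹ ^ (M - 1)) := by
  rw [KLC.isInt_iff_forall_ord (FF.transcendental_inv (transcendental_JJ M))]
  intro P hP
  rw [Place.ord_inv] at hP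
  rcases lt_or_eq_of_le (show P.ord (JJ M) ≤ 0 by omega) with hlt | heq
  · obtain ⟨i, hi⟩ := Genus.exists_Winf_centred P hlt
    rw [← hi.le_one_iff, map_mul, map_pow, map_pow, map_mul, map_pow, map_pow, Winf_phi_JJ_inv,
      z5_phi_eq M x u hx]
    calc Winf M (algebraMap (MerMod M) (LL M) (i.out • u)) ^ M * WithZero.exp (-(M : ℤ)) ^ (M - 1)
        ≤ WithZero.exp ((M : ℤ) - 1) ^ M * WithZero.exp (-(M : ℤ)) ^ (M - 1) := by
          gcongr
          exact hu _
      _ = 1 := by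
          have hM : 1 ≤ M := Nat.one_le_iff_ne_zero.mpr (NeZero.ne M)
          rw [← WithZero.exp_nsmul, ← WithZero.exp_nsmul, ← WithZero.exp_add, ← WithZero.exp_zero]
          congr 1
          simp only [nsmul_eq_mul]
          push_cast [Nat.cast_sub hM]
          ring
  · have h1 := z5_ord_nonneg_of_Psi M x u hx P heq.ge
    rcases eq_or_ne x 0 with rfl | hx0
    · rw [zero_pow (NeZero.ne M), zero_mul]
      simp
    have hJ : (JJ M) ≠ 0 := fun h => transcendental_JJ M (by rw [h]; exact isAlgebraic_zero)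
    rw [P.ord_mul (pow_ne_zero _ hx0) (pow_ne_zero _ (inv_ne_zero hJ)), FF.ord_pow, FF.ord_pow,
      Place.ord_inv, heq]
    simp only [neg_zero, mul_zero, add_zero]
    positivity

end Fermat.Agent.GAL.CTV
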