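import Fermat.Agent.GAL.CTV.Z.Mem
import Fermat.Agent.GAL.CTV.Z.Forms
import Fermat.Agent.GAL.CTV.Z.IntFin
import Fermat.Agent.GAL.CTV.Z.IntInf
import Fermat.Agent.GAL.KLC.XMem

/-!
# GAL / CTV / Z : assembly of the analytic half of block Z : `z0_mem` and the three char `0` facts.
-/

set_option autoImplicit false

open Polynomial ModularCurve AlgebraicCurve UpperHalfPlane
open scoped MatrixGroups

noncomputable section

namespace Fermat.Agent.GAL.CTV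

open Fermat.Agent.GAL.KL Fermat.Agent.GAL.KLC Fermat.Agent.S24

theorem za_coe_JJ (M : ℕ) : ((JJ M : FN M) : LaurentSeries Qb) = cZ Qb jZ := by
  have h1 : ((JJ M : FN M) : LaurentSeries Qb) = coeffEmb Qb (qExpand ℚ 1 jq) := rfl
  have h2 : cZ ℚ jZ = jq := map_jqModC (K := ℤ) (Int.castRingHom ℚ)
  rw [h1, qExpand_one_apply, ← h2, ← xMem_coeffMap_int]

/-- integrality in the subfield `FN M` implies integrality in `ℚ̄((q))`. -/
theorem za_isInt_coe {M : ℕ} {t x : FN M} (h : IsInt Qb t x) :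
    IsInt Qb (t : LaurentSeries Qb) (x : LaurentSeries Qb) := by
  obtain ⟨p, hp, hpx⟩ := h
  refine ⟨p, hp, ?_⟩
  have h1 := congrArg (algebraMap (FN M) (LaurentSeries Qb)) hpx
  rw [map_zero, Polynomial.hom_eval₂] at h1
  have h2 : (algebraMap (FN M) (LaurentSeries Qb)).comp
      ((aeval t : Qb[X] →ₐ[Qb] FN M) : Qb[X] →+* FN M)
      = ((aeval (t : LaurentSeries Qb) : Qb[X] →ₐ[Qb] LaurentSeries Qb) :
          Qb[X] →+* LaurentSeries Qb) := by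
    apply Polynomial.ringHom_ext
    · intro a
      simp only [RingHom.comp_apply, RingHom.coe_coe, aeval_C]
      rfl
    · simp only [RingHom.comp_apply, RingHom.coe_coe, aeval_X]
      rfl
  rw [h2] at h1
  exact h1

theorem za_gZ (fZ : PowerSeries ℤ) : gZ fZ = pZ (fZ ^ 6) * DZi := by
  unfold gZ
  rw [show pZ (fZ ^ 6) = pZ fZ ^ 6 from map_pow _ _ _]

/-- (Za) -/
theorem z0_mem (M : ℕ) [NeZero M] (fZ : PowerSeries ℤ) (hf : IsCuspExp M fZ) :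
    cZ Qb (z0Z fZ) ∈ FL Qb M := by
  obtain ⟨G, hG⟩ := z_form_z0 M fZ hf
  have h := z_mem_FL M G _ hG
  have e : z0Z fZ = pZ (fZ * eisenstein4 * eisenstein6) * DZi := by
    unfold z0Z E4Z E6Z
    rw [show pZ (fZ * eisenstein4 * eisenstein6)
      = pZ fZ * pZ eisenstein4 * pZ eisenstein6 by rw [← map_mul, ← map_mul]]
  rw [e]
  exact h

theorem z3_mem (M : ℕ) [NeZero M] (fZ : PowerSeries ℤ) (hf : IsCuspExp M fZ) :
    cZ Qb (gZ fZ) ∈ FL Qb M := by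
  obtain ⟨G, -, hG⟩ := z_form_g M fZ hf
  rw [za_gZ]
  exact z_mem_FL M G _ hG

theorem z3_fin (M : ℕ) [NeZero M] (fZ : PowerSeries ℤ) (hf : IsCuspExp M fZ) :
    IsInt Qb (cZ Qb jZ) (cZ Qb (gZ fZ)) := by
  obtain ⟨G, -, hG⟩ := z_form_g M fZ hf
  rw [za_gZ]
  have hmem := z_mem_FL M G _ hG
  have h := za_isInt_coe (z_isInt_of_Psi M _ _ (z_Psi M G _ hG hmem))
  rwa [za_coe_JJ] at h

theorem z3_inf (M : ℕ) [NeZero M] (fZ : PowerSeries ℤ) (hf : IsCuspExp M fZ) :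
    IsInt Qb (cZ Qb jZ)⁻¹ (cZ Qb (gZ fZ) ^ M * (cZ Qb jZ)⁻¹ ^ (M - 1)) := by
  obtain ⟨G, hGc, hG⟩ := z_form_g M fZ hf
  rw [za_gZ]
  have hmem := z_mem_FL M G _ hG
  have h := za_isInt_coe (z_isInt_inf_of_Psi M _ _ (z_Psi M G _ hG hmem)
    (fun γ => z_Winf_cusp M G hGc γ))
  have e1 : (((JJ M)⁻¹ : FN M) : LaurentSeries Qb) = (cZ Qb jZ)⁻¹ := by
    rw [← za_coe_JJ M]; rfl
  have e2 : ((((⟨_, hmem⟩ : FN M) ^ M * (JJ M)⁻¹ ^ (M - 1) : FN M)) : LaurentSeries Qb)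
      = cZ Qb (pZ (fZ ^ 6) * DZi) ^ M * (cZ Qb jZ)⁻¹ ^ (M - 1) := by
    rw [← e1]; rfl
  rwa [e1, e2] at h

end Fermat.Agent.GAL.CTV
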