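import Fermat.Agent.GAL.CTV.WDefs
import Fermat.Agent.S28.FinalCharts
import Fermat.Agent.GAL.AN.LD

/-!
# GAL / CTV / Z0 : definitions `jZi`, `evZl` and small facts on `cZ`
-/

set_option autoImplicit false

open Polynomial ModularCurve AlgebraicCurve

noncomputable section

namespace Fermat.Agent.GAL.CTV

open Fermat.Agent.GAL.KL Fermat.Agent.GAL.KLC

/-- `1/j ∈ ℤ((q))`. -/
def jZi : LaurentSeries ℤ :=
  HahnSeries.single (1 : ℤ) 1 * HahnSeries.ofPowerSeries ℤ ℤ (jNum.invOfUnit 1)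

/-- `ℤ_(ℓ)[X] → ℚ((q))`, `X ↦ t`. -/
def evZl (ℓ : ℕ) (t : LaurentSeries ℚ) : Polynomial (S28.Zl ℓ) →+* LaurentSeries ℚ :=
  Polynomial.eval₂RingHom
    ((algebraMap ℚ (LaurentSeries ℚ)).comp (GaloisRep.ratLocalizedAt ℓ).subtype) t

/-! ## Z0 : small facts -/

theorem jZ_mul_jZi : jZ * jZi = 1 := by
  have h1 : jNum.map (Int.castRingHom ℤ) = jNum := by
    ext n
    simp
  have h2 : jNum * jNum.invOfUnit 1 = 1 :=
    PowerSeries.mul_invOfUnit jNum 1 (by rw [constantCoeff_jNum]; rfl)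
  have h3 : (HahnSeries.single (-1 : ℤ) (1 : ℤ) : LaurentSeries ℤ) * HahnSeries.single (1 : ℤ) 1 = 1 := by
    rw [HahnSeries.single_mul_single]
    norm_num
  calc jZ * jZi
      = (HahnSeries.single (-1 : ℤ) (1 : ℤ) * HahnSeries.single (1 : ℤ) 1) *
          (HahnSeries.ofPowerSeries ℤ ℤ jNum * HahnSeries.ofPowerSeries ℤ ℤ (jNum.invOfUnit 1)) := by
        rw [jZi]
        show HahnSeries.single (-1 : ℤ) 1 *
          HahnSeries.ofPowerSeries ℤ ℤ (jNum.map (Int.castRingHom ℤ)) * _ = _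
        rw [h1]
        ring
    _ = 1 := by rw [h3, ← map_mul, h2, map_one, one_mul]

theorem cZ_jZi (k : Type*) [Field k] : cZ k jZi = (cZ k jZ)⁻¹ := by
  refine eq_inv_of_mul_eq_one_right ?_
  rw [← map_mul, jZ_mul_jZi, map_one]

theorem cZ_rat_jZ : cZ ℚ jZ = jq := by
  rw [← jqModC_rat]
  exact map_jqModC (Int.castRingHom ℚ)

theorem coeffEmb_cZ (L : Type*) [Field L] [Algebra ℚ L] (y : LaurentSeries ℤ) :
    coeffEmb L (cZ ℚ y) = cZ L y := by
  rw [coeffEmb, coeffMap_coeffMap]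
  exact coeffMap_congr (RingHom.ext_int _ _) y

theorem coeff_cZ_mem (ℓ : ℕ) (y : LaurentSeries ℤ) (n : ℤ) :
    (cZ ℚ y).coeff n ∈ GaloisRep.ratLocalizedAt ℓ := by
  rw [coeffMap_coeff]
  exact intCast_mem _ _

theorem z0_comp_iT (M ℓ : ℕ) [Fact ℓ.Prime] (t : S28.Fp M) :
    (algebraMap (S28.Fp M) (LaurentSeries ℚ)).comp (S28.iT M ℓ t) =
      evZl ℓ (t : LaurentSeries ℚ) := by
  apply Polynomial.ringHom_ext
  · intro a
    simp only [S28.iT, evZl, RingHom.comp_apply, Polynomial.coe_eval₂RingHom, Polynomial.eval₂_C]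
    exact RingHom.congr_fun (RingHom.ext_rat
      ((algebraMap (S28.Fp M) (LaurentSeries ℚ)).comp (algebraMap ℚ (S28.Fp M)))
      (algebraMap ℚ (LaurentSeries ℚ))) _
  · simp only [S28.iT, evZl, RingHom.comp_apply, Polynomial.coe_eval₂RingHom, Polynomial.eval₂_X]
    rfl

/-- integrality in the subfield `F'` and in `ℚ((q))`. -/
theorem isIntegralElem_iT_iff (M ℓ : ℕ) [Fact ℓ.Prime] (t x : S28.Fp M) :
    (S28.iT M ℓ t).IsIntegralElem x ↔
      (evZl ℓ (t : LaurentSeries ℚ)).IsIntegralElem (x : LaurentSeries ℚ) := by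
  rw [← z0_comp_iT]
  constructor
  · rintro ⟨P, hP, hev⟩
    refine ⟨P, hP, ?_⟩
    have : ((x : S28.Fp M) : LaurentSeries ℚ) = algebraMap (S28.Fp M) (LaurentSeries ℚ) x := rfl
    rw [this, ← Polynomial.hom_eval₂, hev, map_zero]
  · rintro ⟨P, hP, hev⟩
    refine ⟨P, hP, (algebraMap (S28.Fp M) (LaurentSeries ℚ)).injective ?_⟩
    rw [Polynomial.hom_eval₂, map_zero]
    exact hev

end Fermat.Agent.GAL.CTV
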