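import Fermat.Agent.GAL.CTV.WDefs
import Fermat.Agent.ES.Defs

/-!
# GAL / CTV / Z : block Z (bridge char 0 → char ℓ).  Shared definitions (no sorry).
-/

set_option autoImplicit false

open UpperHalfPlane

noncomputable section

namespace Fermat.Agent.GAL.CTV

/-- modular forms of weight `12` on `Γ₀(M)` (in the shape `12 * s`, `s = 1`, used by `Genus.formsT`). -/
abbrev MF12 (M : ℕ) : Submodule ℂ (ℍ → ℂ) := ES.MF (CongruenceSubgroup.Gamma0 M) (12 * ((1 : ℕ) : ℤ))

end Fermat.Agent.GAL.CTV
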