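import Fermat.Agent.GAL.CTV.Z.Defs
import Fermat.Agent.GAL.Genus.Forms
import Fermat.Agent.GAL.AN.CharFun
import Fermat.Agent.S24.Mod.QExpDelta
import Fermat.Agent.S28.ToolkitGF

/-!
# GAL / CTV / Z1 : the `Q`-expansion of `G/Δ` for a weight `12` form `G` with integral `q`-expansion
-/

set_option autoImplicit false

open Polynomial ModularCurve AlgebraicCurve UpperHalfPlane
open scoped MatrixGroups

noncomputable section

namespace Fermat.Agent.GAL.CTV

open Fermat.Agent.GAL.KL Fermat.Agent.GAL.KLC Fermat.Agent.S24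

local notation "Δ" => ModularForm.discriminant

/-- a form on `Γ₀(M)` is invariant under `τ ↦ τ + 1`. -/
theorem z1_vadd_one {M : ℕ} {k : ℤ} {f : ℍ → ℂ}
    (hf : f ∈ ES.MF (CongruenceSubgroup.Gamma0 M) k) (τ : ℍ) : f ((1 : ℝ) +ᵥ τ) = f τ := by
  have hT : ModularGroup.T ∈ CongruenceSubgroup.Gamma0 M := AN.T_mem_Gamma0 M
  have h1 := congrFun (hf.2.1 ModularGroup.T hT) τ
  rw [ModularForm.SL_slash_apply, UpperHalfPlane.modular_T_smul] at h1
  have h2 : denom (ModularGroup.T : SL(2, ℤ)) τ = 1 := by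
    simp [denom, ModularGroup.coe_T]
  rw [h2, one_zpow, mul_one] at h1
  exact h1

/-- a form on `Γ₀(M)` is nice of period `1`. -/
theorem z1_isNice_one {M : ℕ} {k : ℤ} {f : ℍ → ℂ}
    (hf : f ∈ ES.MF (CongruenceSubgroup.Gamma0 M) k) : IsNice 1 f where
  per := by simpa using AN.charFun_periodic_one (g := f) (z1_vadd_one hf)
  holo := hf.1
  bdd := by simpa using hf.2.2 1

theorem z1_ofPowerSeries_qExpansion_discriminant :
    HahnSeries.ofPowerSeries ℤ ℂ (qExpansion 1 Δ) = S28.DqC ℂ := by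
  rw [qExpansion_discriminant, map_mul, HahnSeries.ofPowerSeries_X]
  rfl

theorem z_LamM_formsT (M : ℕ) [NeZero M] (G : MF12 M) (GZ : PowerSeries ℤ)
    (hG : qExpansion 1 (G : ℍ → ℂ) = GZ.map (Int.castRingHom ℂ)) :
    LamM M (Genus.formsT M 1 G) = AN.kapC M (cZ ℂ (pZ GZ * DZi)) := by
  have hG1 : IsNice 1 (G : ℍ → ℂ) := z1_isNice_one G.2
  have hGM : IsNice M (G : ℍ → ℂ) := by
    have := Genus.forms_isNice_slash G.2 1
    simpa using this
  obtain ⟨D, hD⟩ : ∃ D : MerInf M, D.1 = Δ := ⟨⟨_, (isNice_discriminant M).mem_MerInf⟩, rfl⟩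
  obtain ⟨G', hG'⟩ : ∃ G' : MerInf M, G'.1 = (G : ℍ → ℂ) := ⟨⟨_, hGM.mem_MerInf⟩, rfl⟩
  have hmul : D * (Subalgebra.inclusion (MerMod_le_MerInf M) (Genus.formsT M 1 G)) = G' := by
    apply Subtype.ext
    funext τ
    have : (D * (Subalgebra.inclusion (MerMod_le_MerInf M) (Genus.formsT M 1 G))).1 τ
        = D.1 τ * (Genus.formsT M 1 G).1 τ := rfl
    rw [this, hD, hG', Genus.formsT_apply, pow_one,
      mul_div_cancel₀ _ (ModularForm.discriminant_ne_zero τ)]
  have hLD : Lam M D = qExpand ℂ M (S28.DqC ℂ) := by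
    rw [Lam_of_isNice M D (by rw [hD]; exact isNice_discriminant M), hD,
      AN.charFun_ofPowerSeries_qExpansion M isNice_discriminant_one,
      z1_ofPowerSeries_qExpansion_discriminant]
  have hLG : Lam M G' = qExpand ℂ M (cZ ℂ (pZ GZ)) := by
    rw [Lam_of_isNice M G' (by rw [hG']; exact hGM), hG',
      AN.charFun_ofPowerSeries_qExpansion M hG1, hG, ModularCurve.coeffMap_ofPowerSeries]
  have hD0 : Lam M D ≠ 0 := by
    intro h0
    have hD00 : D = 0 := Lam_injective M (by rw [h0, map_zero])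
    have h1 : D.1 UpperHalfPlane.I = 0 := by rw [hD00]; rfl
    rw [hD] at h1
    exact ModularForm.discriminant_ne_zero _ h1
  have h3 : Lam M D * LamM M (Genus.formsT M 1 G) = Lam M G' := by
    rw [← hmul, map_mul]
    rfl
  apply mul_left_cancel₀ hD0
  rw [h3, hLG, hLD]
  unfold AN.kapC
  rw [← map_mul, map_mul (cZ ℂ), S28.coeffMap_DqInvC, mul_left_comm, S28.DqC_mul_DqInvC, mul_one]

end Fermat.Agent.GAL.CTV
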