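import Fermat.Agent.GAL.CTV.Z.Defs
import Fermat.Agent.GAL.CTV.Z.Lam
import Fermat.Agent.GAL.Genus.Main
import Fermat.Agent.GAL.AN.Inv
import Fermat.Agent.GAL.AN.LD

/-!
# GAL / CTV / Z2 : `G/Δ` lies in `FL ℚ̄ M`, and `Psi` of it is the analytic function
-/

set_option autoImplicit false

open Polynomial ModularCurve AlgebraicCurve UpperHalfPlane
open scoped MatrixGroups

noncomputable section

namespace Fermat.Agent.GAL.CTV

open Fermat.Agent.GAL.KL Fermat.Agent.GAL.KLC Fermat.Agent.S24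

theorem z2_iotaS_cZ (y : LaurentSeries ℤ) : AN.iotaS (cZ Qb y) = cZ ℂ y := by
  rw [AN.iotaS, cZ, coeffMap_coeffMap]
  exact coeffMap_congr (RingHom.ext_int _ _) y

theorem z_mem_FL (M : ℕ) [NeZero M] (G : MF12 M) (GZ : PowerSeries ℤ)
    (hG : qExpansion 1 (G : ℍ → ℂ) = GZ.map (Int.castRingHom ℂ)) :
    cZ Qb (pZ GZ * DZi) ∈ FL Qb M := by
  obtain ⟨x, hx, hxe⟩ := AN.inv_mem_FL M (Genus.formsT M 1 G)
    (fun γ hγ => Genus.formsT_smul M 1 G γ hγ)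
  rw [z_LamM_formsT M G GZ hG] at hxe
  have h1 : cZ ℂ (pZ GZ * DZi) = x := (AN.kapC M).injective hxe
  apply AN.mem_FL_of_iotaS_mem
  rw [z2_iotaS_cZ, h1]
  exact hx

theorem z_Psi (M : ℕ) [NeZero M] (G : MF12 M) (GZ : PowerSeries ℤ)
    (hG : qExpansion 1 (G : ℍ → ℂ) = GZ.map (Int.castRingHom ℂ))
    (h : cZ Qb (pZ GZ * DZi) ∈ FL Qb M) :
    Psi M (⟨_, h⟩ : FN M) = algebraMap (MerMod M) (LL M) (Genus.formsT M 1 G) := by
  apply LamL_injective M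
  rw [LamL_Psi, LamL_algebraMap, z_LamM_formsT M G GZ hG, kap_apply]
  show qExpand ℂ M (AN.iotaS (cZ Qb (pZ GZ * DZi))) = _
  rw [z2_iotaS_cZ]
  rfl

end Fermat.Agent.GAL.CTV
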