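import Fermat.Agent.GAL.CTV.WDefs
import Fermat.Agent.GAL.KLC.XSeries
import Fermat.Agent.S28.Concrete

/-!
# GAL / CTV / Z8 : reduction of a monic equation over `ℤ_(ℓ)[t]` between integer `q`-series mod `ℓ`
-/

set_option autoImplicit false

open Polynomial ModularCurve

noncomputable section

namespace Fermat.Agent.GAL.CTV

open Fermat.Agent.GAL.KL Fermat.Agent.GAL.KLC

theorem z8_coeffMap_C {A B : Type*} [CommRing A] [CommRing B] (f : A →+* B) (r : A) :
    coeffMap f (HahnSeries.C r) = HahnSeries.C (f r) := by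
  rw [HahnSeries.C_apply, coeffMap_single, HahnSeries.C_apply]

theorem z8_coeffMap_cZ {A B : Type*} [CommRing A] [CommRing B] (f : A →+* B)
    (y : LaurentSeries ℤ) : coeffMap f (cZ A y) = cZ B y := by
  rw [coeffMap_coeffMap]
  exact coeffMap_congr (RingHom.ext_int _ _) y

theorem z8_algebraMap (k : Type*) [Field k] (a : k) :
    algebraMap k (LaurentSeries k) a = HahnSeries.C a := by
  rw [LaurentSeries.algebraMap_apply]

theorem z_reduce (M ℓ : ℕ) [Fact ℓ.Prime] (k : Type*) [Field k] [CharP k ℓ]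
    (tZ y : LaurentSeries ℤ) (t x : S28.Fp M) (ht : (t : S28.LQ) = cZ ℚ tZ)
    (hx : (x : S28.LQ) = cZ ℚ y) (h : (S28.iT M ℓ t).IsIntegralElem x) :
    IsInt k (cZ k tZ) (cZ k y) := by
  obtain ⟨p, hp, hpx⟩ := h
  -- the evaluation over `R = ℤ_(ℓ)`
  let eR : (S28.Zl ℓ)[X] →+* LaurentSeries (S28.Zl ℓ) :=
    Polynomial.eval₂RingHom (HahnSeries.C : S28.Zl ℓ →+* LaurentSeries (S28.Zl ℓ))
      (cZ (S28.Zl ℓ) tZ)
  let inc : LaurentSeries (S28.Zl ℓ) →+* S28.LQ := coeffMap (GaloisRep.ratLocalizedAt ℓ).subtype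
  have hinc : Function.Injective inc := GR.coeffMap_injective Subtype.val_injective
  have h1 : inc.comp eR = (algebraMap (S28.Fp M) S28.LQ).comp (S28.iT M ℓ t) := by
    refine Polynomial.ringHom_ext (fun c => ?_) ?_
    · simp only [RingHom.comp_apply, eR, inc, S28.iT, Polynomial.coe_eval₂RingHom,
        Polynomial.eval₂_C, z8_coeffMap_C]
      exact RingHom.congr_fun (RingHom.ext_rat (HahnSeries.C : ℚ →+* S28.LQ)
        ((algebraMap (S28.Fp M) S28.LQ).comp (algebraMap ℚ (S28.Fp M)))) _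
    · simp only [RingHom.comp_apply, eR, inc, S28.iT, Polynomial.coe_eval₂RingHom,
        Polynomial.eval₂_X, z8_coeffMap_cZ]
      exact ht.symm
  have h2 : Polynomial.eval₂ eR (cZ (S28.Zl ℓ) y) p = 0 := by
    apply hinc
    rw [map_zero, Polynomial.hom_eval₂, h1]
    have h3 : inc (cZ (S28.Zl ℓ) y) = algebraMap (S28.Fp M) S28.LQ x := by
      rw [z8_coeffMap_cZ]; exact hx.symm
    rw [h3, ← Polynomial.hom_eval₂, hpx, map_zero]
  -- reduction
  let ρ : S28.Zl ℓ →+* k := (ZMod.castHom (dvd_refl ℓ) k).comp (S28.resZ ℓ)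
  have h4 : (coeffMap ρ).comp eR
      = ((aeval (cZ k tZ) : k[X] →ₐ[k] LaurentSeries k) : k[X] →+* LaurentSeries k).comp
        (Polynomial.mapRingHom ρ) := by
    refine Polynomial.ringHom_ext (fun c => ?_) ?_
    · simp only [RingHom.comp_apply, eR, Polynomial.coe_eval₂RingHom, Polynomial.eval₂_C,
        z8_coeffMap_C, Polynomial.coe_mapRingHom, Polynomial.map_C, RingHom.coe_coe,
        Polynomial.aeval_C, z8_algebraMap]
    · simp only [RingHom.comp_apply, eR, Polynomial.coe_eval₂RingHom, Polynomial.eval₂_X,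
        z8_coeffMap_cZ, Polynomial.coe_mapRingHom, Polynomial.map_X, RingHom.coe_coe,
        Polynomial.aeval_X]
  refine ⟨p.map (Polynomial.mapRingHom ρ), hp.map _, ?_⟩
  rw [Polynomial.eval₂_map, ← h4, ← z8_coeffMap_cZ ρ y, ← Polynomial.hom_eval₂, h2, map_zero]

theorem z_exists_jinv : ∃ jiZ : LaurentSeries ℤ, jZ * jiZ = 1 := by
  obtain ⟨u, hu, hj⟩ := XSeries_jq
  have h1 : u * u.invOfUnit 1 = 1 := PowerSeries.mul_invOfUnit _ _ (by rw [hu]; rfl)
  refine ⟨HahnSeries.single (1 : ℤ) 1 * HahnSeries.ofPowerSeries ℤ ℤ (u.invOfUnit 1), ?_⟩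
  show jqModC ℤ * _ = 1
  rw [hj, mul_mul_mul_comm, HahnSeries.single_mul_single, ← map_mul, h1, map_one, mul_one,
    mul_one]
  rfl

end Fermat.Agent.GAL.CTV
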