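import Fermat.Agent.GAL.KL.Defs
import Fermat.Agent.S28.Final

/-!
# GAL / CTV / Z7 : integrality over `ℤ_(ℓ)[j]`, `ℤ_(ℓ)[1/j]` from the `q`-expansion principle
-/

set_option autoImplicit false

open Polynomial

noncomputable section

namespace Fermat.Agent.GAL.CTV

open Fermat.Agent.GAL.KL

/-- every rational number becomes `ℓ`-integral after multiplication by a power of `ℓ`. -/
theorem z7_rat (ℓ : ℕ) [Fact ℓ.Prime] (c : ℚ) :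
    ∃ e : ℕ, (ℓ : ℚ) ^ e * c ∈ GaloisRep.ratLocalizedAt ℓ := by
  have hℓ : ℓ.Prime := Fact.out
  obtain ⟨e, m, hm, hd⟩ := Nat.exists_eq_pow_mul_and_not_dvd c.den_nz ℓ hℓ.ne_one
  refine ⟨e, ?_⟩
  have hℓ0 : (ℓ : ℚ) ≠ 0 := by exact_mod_cast hℓ.ne_zero
  have hm0 : (m : ℚ) ≠ 0 := by
    intro h
    apply hm
    have : m = 0 := by exact_mod_cast h
    rw [this]; exact dvd_zero _
  have h1 : (ℓ : ℚ) ^ e * c = (c.num : ℚ) / ((m : ℤ) : ℚ) := by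
    conv_lhs => rw [← Rat.num_div_den c, hd]
    push_cast
    field_simp
  rw [h1]
  exact S28.zl_divInt_mem ℓ _ _ (by exact_mod_cast hm)

/-- the inclusion `ℤ_(ℓ)[X] → ℚ[X]`. -/
abbrev z7_inc (ℓ : ℕ) : (S28.Zl ℓ)[X] →+* ℚ[X] :=
  Polynomial.mapRingHom (GaloisRep.ratLocalizedAt ℓ).subtype

theorem z7_C_pow_mem (ℓ : ℕ) (e : ℕ) : C ((ℓ : ℚ) ^ e) ∈ (z7_inc ℓ).range :=
  ⟨C ((ℓ : S28.Zl ℓ) ^ e), by simp⟩

/-- clearing the denominators of a polynomial. -/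
theorem z7_poly (ℓ : ℕ) [Fact ℓ.Prime] (c : ℚ[X]) :
    ∃ e : ℕ, C ((ℓ : ℚ) ^ e) * c ∈ (z7_inc ℓ).range := by
  induction c using Polynomial.induction_on' with
  | add p q hp hq =>
    obtain ⟨e₁, h₁⟩ := hp
    obtain ⟨e₂, h₂⟩ := hq
    refine ⟨e₁ + e₂, ?_⟩
    have : C ((ℓ : ℚ) ^ (e₁ + e₂)) * (p + q)
        = C ((ℓ : ℚ) ^ e₂) * (C ((ℓ : ℚ) ^ e₁) * p) + C ((ℓ : ℚ) ^ e₁) * (C ((ℓ : ℚ) ^ e₂) * q) := by
      rw [pow_add, C_mul]; ring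
    rw [this]
    exact add_mem (mul_mem (z7_C_pow_mem ℓ e₂) h₁) (mul_mem (z7_C_pow_mem ℓ e₁) h₂)
  | monomial n a =>
    obtain ⟨e, he⟩ := z7_rat ℓ a
    refine ⟨e, monomial n (⟨_, he⟩ : S28.Zl ℓ), ?_⟩
    rw [C_mul_monomial]
    simp

/-- clearing the denominators of a polynomial in two variables. -/
theorem z7_poly₂ (ℓ : ℕ) [Fact ℓ.Prime] (p : ℚ[X][X]) :
    ∃ e : ℕ, ∀ i, C ((ℓ : ℚ) ^ e) * p.coeff i ∈ (z7_inc ℓ).range := by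
  induction p using Polynomial.induction_on' with
  | add p q hp hq =>
    obtain ⟨e₁, h₁⟩ := hp
    obtain ⟨e₂, h₂⟩ := hq
    refine ⟨e₁ + e₂, fun i => ?_⟩
    have : C ((ℓ : ℚ) ^ (e₁ + e₂)) * (p + q).coeff i
        = C ((ℓ : ℚ) ^ e₂) * (C ((ℓ : ℚ) ^ e₁) * p.coeff i)
          + C ((ℓ : ℚ) ^ e₁) * (C ((ℓ : ℚ) ^ e₂) * q.coeff i) := by
      rw [pow_add, C_mul, coeff_add]; ring
    rw [this]
    exact add_mem (mul_mem (z7_C_pow_mem ℓ e₂) (h₁ i)) (mul_mem (z7_C_pow_mem ℓ e₁) (h₂ i))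
  | monomial n a =>
    obtain ⟨e, he⟩ := z7_poly ℓ a
    refine ⟨e, fun i => ?_⟩
    rw [coeff_monomial]
    split_ifs
    · exact he
    · rw [mul_zero]; exact zero_mem _

theorem z7_iT_eq (M ℓ : ℕ) [Fact ℓ.Prime] (t : S28.Fp M) :
    S28.iT M ℓ t = ((aeval t : ℚ[X] →ₐ[ℚ] S28.Fp M) : ℚ[X] →+* S28.Fp M).comp (z7_inc ℓ) := by
  apply Polynomial.ringHom_ext
  · intro a
    simp [S28.iT]
  · simp [S28.iT]

/-- (a) clearing denominators. -/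
theorem z7_clear (M ℓ : ℕ) [Fact ℓ.Prime] (t x : S28.Fp M) (hx : IsInt ℚ t x) :
    ∃ a : ℕ, (S28.iT M ℓ t).IsIntegralElem ((ℓ : S28.Fp M) ^ a * x) := by
  obtain ⟨p, hp, hpx⟩ := hx
  obtain ⟨e, he⟩ := z7_poly₂ ℓ p
  refine ⟨e, ?_⟩
  set s : ℚ[X] := C ((ℓ : ℚ) ^ e) with hs
  have hl : scaleRoots p s ∈ Polynomial.lifts (z7_inc ℓ) := by
    rw [Polynomial.lifts_iff_coeff_lifts]
    intro i
    rw [coeff_scaleRoots]
    by_cases hi : i < p.natDegree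
    · obtain ⟨k, hk⟩ : ∃ k, p.natDegree - i = k + 1 := ⟨p.natDegree - i - 1, by omega⟩
      rw [hk, pow_succ]
      have : p.coeff i * (s ^ k * s) = s ^ k * (s * p.coeff i) := by ring
      rw [this]
      exact mul_mem (pow_mem (z7_C_pow_mem ℓ e) k) (he i)
    · rcases (not_lt.1 hi).eq_or_lt with h | h
      · rw [← h, Nat.sub_self, pow_zero, mul_one, hp.coeff_natDegree]
        exact one_mem (z7_inc ℓ).range
      · rw [coeff_eq_zero_of_natDegree_lt h, zero_mul]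
        exact zero_mem (z7_inc ℓ).range
  obtain ⟨P, hP, -, hPm⟩ := Polynomial.lifts_and_natDegree_eq_and_monic hl
    ((monic_scaleRoots_iff s).2 hp)
  refine ⟨P, hPm, ?_⟩
  rw [z7_iT_eq, ← Polynomial.eval₂_map, hP]
  have hsx : ((aeval t : ℚ[X] →ₐ[ℚ] S28.Fp M) : ℚ[X] →+* S28.Fp M) s = (ℓ : S28.Fp M) ^ e := by
    simp [hs]
  rw [← hsx, scaleRoots_eval₂_mul, hpx, mul_zero]

theorem z7_natCast_ne_zero (M ℓ : ℕ) [Fact ℓ.Prime] : (ℓ : S28.Fp M) ≠ 0 := by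
  have hℓ : ℓ.Prime := Fact.out
  exact_mod_cast hℓ.ne_zero

theorem z7_pow_integral (M ℓ : ℕ) [Fact ℓ.Prime] (t : S28.Fp M) (a : ℕ) :
    (S28.iT M ℓ t).IsIntegralElem ((ℓ : S28.Fp M) ^ a) := by
  have : (ℓ : S28.Fp M) ^ a = S28.iT M ℓ t ((ℓ : (S28.Zl ℓ)[X]) ^ a) := by simp
  rw [this]
  exact (S28.iT M ℓ t).isIntegralElem_map

theorem z7_coeff (M ℓ : ℕ) (x : S28.Fp M) (a : ℕ) (n : ℤ) :
    (((ℓ : S28.Fp M) ^ a * x : S28.Fp M) : S28.LQ).coeff n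
      = (ℓ : ℚ) ^ a * (x : S28.LQ).coeff n := by
  have h : (((ℓ : S28.Fp M) ^ a * x : S28.Fp M) : S28.LQ)
      = HahnSeries.C ((ℓ : ℚ) ^ a) * (x : S28.LQ) := by
    push_cast
    simp
  rw [h, HahnSeries.C_mul_eq_smul, HahnSeries.coeff_smul, smul_eq_mul]

theorem z7_coeff_succ (M ℓ : ℕ) [Fact ℓ.Prime] (x : S28.Fp M)
    (hc : ∀ n, (x : S28.LQ).coeff n ∈ GaloisRep.ratLocalizedAt ℓ) (a : ℕ) (n : ℤ) :
    ∃ c ∈ GaloisRep.ratLocalizedAt ℓ,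
      (((ℓ : S28.Fp M) ^ (a + 1) * x : S28.Fp M) : S28.LQ).coeff n = (ℓ : ℚ) * c := by
  refine ⟨(ℓ : ℚ) ^ a * (x : S28.LQ).coeff n,
    mul_mem (pow_mem (natCast_mem _ ℓ) a) (hc n), ?_⟩
  rw [z7_coeff, pow_succ]
  ring

theorem z_integral_fin (M ℓ : ℕ) [Fact ℓ.Prime] (hM : M ≠ 0) (hℓM : ¬ ℓ ∣ M) (x : S28.Fp M)
    (hx : IsInt ℚ (S28.jF M) x)
    (hc : ∀ n, (x : S28.LQ).coeff n ∈ GaloisRep.ratLocalizedAt ℓ) :
    (S28.iT M ℓ (S28.jF M)).IsIntegralElem x := by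
  obtain ⟨a, ha⟩ := z7_clear M ℓ _ x hx
  induction a with
  | zero => simpa using ha
  | succ a ih =>
    obtain ⟨g, hg, he⟩ := S28.core_fin M ℓ hM hℓM _ ha (z7_coeff_succ M ℓ x hc a)
    apply ih
    have : g = (ℓ : S28.Fp M) ^ a * x := by
      apply mul_left_cancel₀ (z7_natCast_ne_zero M ℓ)
      rw [← he, pow_succ]
      ring
    rwa [← this]

theorem z_integral_inf (M ℓ : ℕ) [Fact ℓ.Prime] (hM : M ≠ 0) (hℓM : ¬ ℓ ∣ M) (x : S28.Fp M)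
    (hx : IsInt ℚ (S28.jF M)⁻¹ x) (n : ℕ)
    (hz : (S28.iT M ℓ (S28.jF M)).IsIntegralElem ((S28.jF M) ^ n * x))
    (hc : ∀ n, (x : S28.LQ).coeff n ∈ GaloisRep.ratLocalizedAt ℓ) :
    (S28.iT M ℓ (S28.jF M)⁻¹).IsIntegralElem x := by
  obtain ⟨a, ha⟩ := z7_clear M ℓ _ x hx
  induction a with
  | zero => simpa using ha
  | succ a ih =>
    have hz' : (S28.iT M ℓ (S28.jF M)).IsIntegralElem
        ((S28.jF M) ^ n * ((ℓ : S28.Fp M) ^ (a + 1) * x)) := by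
      have : (S28.jF M) ^ n * ((ℓ : S28.Fp M) ^ (a + 1) * x)
          = (ℓ : S28.Fp M) ^ (a + 1) * ((S28.jF M) ^ n * x) := by ring
      rw [this]
      exact RingHom.IsIntegralElem.mul _ (z7_pow_integral M ℓ _ _) hz
    obtain ⟨g, hg, he⟩ := S28.core_inf M ℓ hM hℓM _ ha n hz' (z7_coeff_succ M ℓ x hc a)
    apply ih
    have : g = (ℓ : S28.Fp M) ^ a * x := by
      apply mul_left_cancel₀ (z7_natCast_ne_zero M ℓ)
      rw [← he, pow_succ]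
      ring
    rwa [← this]

end Fermat.Agent.GAL.CTV
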